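import Fermat.Agent.LevelLowering.Selmer.Basic
import Fermat.Agent.TWPrimes.LocalOrdinary
import Fermat.Agent.TWPrimes.LocalPlace

/-!
# Local classes with a common line at `p`

First order deformations keeping the two diagonal characters have strict classes, so the bound for
strictly ordinary classes applies: `finrank_map_locClass_strict` is the local term of the tangent
bound at `p`.
-/

set_option autoImplicit false

noncomputable section

open scoped TrivSqZeroExt Pointwise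
open Module groupCohomology

namespace FLTAgent.LevelLowering

open FLTAgent.ModularityLifting FLTAgent.DefRing FLTAgent.TWPrimes FLTAgent.LocalDuality

local notation "Qbar" => AlgebraicClosure ℚ

variable {k : Type} [Field k]

/-- The linear part of a product identity. -/
theorem snd_product_eq_zero {ρ : MatRep k} {c : AbsGal → Matrix (Fin 2) (Fin 2) k}
    {M : MatRep (TrivSqZeroExt k k)} (hM : IsDualLift ρ c M) {σ τ : AbsGal} {a l : k}
    (h : (M σ - (TrivSqZeroExt.inl a : TrivSqZeroExt k k) • (1 : Matrix (Fin 2) (Fin 2) _)) *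
      (M τ - (TrivSqZeroExt.inl l : TrivSqZeroExt k k) • (1 : Matrix (Fin 2) (Fin 2) _)) = 0) :
    c σ * ρ σ * (ρ τ - l • 1) + (ρ σ - a • 1) * (c τ * ρ τ) = 0 := by
  have hfs : ∀ (ξ : AbsGal) (b : k),
      (M ξ - (TrivSqZeroExt.inl b : TrivSqZeroExt k k) • (1 : Matrix (Fin 2) (Fin 2) _)).map
          TrivSqZeroExt.fst = ρ ξ - b • 1 ∧
        (M ξ - (TrivSqZeroExt.inl b : TrivSqZeroExt k k) • (1 : Matrix (Fin 2) (Fin 2) _)).map
          TrivSqZeroExt.snd = c ξ * ρ ξ := by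
    intro ξ b
    obtain ⟨hf, hs⟩ := hM.snd_eq ξ
    rw [← hs, ← hf]
    constructor <;> ext i j <;> by_cases hij : i = j <;> simp [hij]
  have h2 := congrArg (fun Y : Matrix (Fin 2) (Fin 2) (TrivSqZeroExt k k) =>
    Y.map TrivSqZeroExt.snd) h
  rw [snd_mul', (hfs σ a).1, (hfs σ a).2, (hfs τ l).1, (hfs τ l).2, add_comm] at h2
  rw [h2]
  ext i j
  simp

/-- A frame with prescribed second row. -/
theorem exists_frame (w : Fin 2 → k) (hw : w ≠ 0) :
    ∃ g : GL (Fin 2) k, ∀ j, (g : Matrix (Fin 2) (Fin 2) k) 1 j = w j := by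
  by_cases h0 : w 0 = 0
  · have h1 : w 1 ≠ 0 := fun h1 => hw (funext fun j => by fin_cases j <;> simp [h0, h1])
    refine ⟨Matrix.GeneralLinearGroup.mkOfDetNeZero !![1, 0; w 0, w 1]
      (by simp [Matrix.det_fin_two, h1]), fun j => ?_⟩
    fin_cases j <;> rfl
  · refine ⟨Matrix.GeneralLinearGroup.mkOfDetNeZero !![0, 1; w 0, w 1]
      (by simp [Matrix.det_fin_two, h0]), fun j => ?_⟩
    fin_cases j <;> rfl

/-- The second row in a frame of a matrix having the second frame vector as left eigenvector. -/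
theorem frame_row_of_eigen (g : GL (Fin 2) k) (X : Matrix (Fin 2) (Fin 2) k) (t : k)
    (h : ∀ j, ((g : Matrix (Fin 2) (Fin 2) k) * X) 1 j = t * (g : Matrix (Fin 2) (Fin 2) k) 1 j)
    (j : Fin 2) :
    ((g : Matrix (Fin 2) (Fin 2) k) * X * (g⁻¹ : GL (Fin 2) k)) 1 j =
      t * (1 : Matrix (Fin 2) (Fin 2) k) 1 j := by
  have h1 : (g : Matrix (Fin 2) (Fin 2) k) * (g⁻¹ : GL (Fin 2) k) = 1 := by
    rw [← Units.val_mul, mul_inv_cancel, Units.val_one]
  conv_rhs => rw [← h1]
  simp only [Matrix.mul_apply (M := (g : Matrix (Fin 2) (Fin 2) k) * X), h, mul_assoc,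
    ← Finset.mul_sum]
  rfl

/-- The product identity determines a coboundary correcting a class at an element with distinct
diagonal values. -/
theorem exists_correction {R E : Matrix (Fin 2) (Fin 2) k} {a l : k} (hne : a ≠ l)
    (hR : (R - a • 1) * (R - l • 1) = 0)
    (hE : E * (R - l • 1) + (R - a • 1) * E = 0) :
    ∃ m : Matrix (Fin 2) (Fin 2) k, m.trace = 0 ∧ m * R - R * m = E := by
  set δ := (a - l)⁻¹ with hδ
  have hRE : R * E = (a + l) • E - E * R := by
    simp only [mul_sub, sub_mul, Matrix.mul_smul, Matrix.smul_mul, one_mul, mul_one] at hE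
    rw [add_smul, eq_sub_iff_add_eq, ← sub_eq_zero, ← hE]
    abel
  have hRR : R * R = (a + l) • R - (a * l) • (1 : Matrix (Fin 2) (Fin 2) k) := by
    simp only [mul_sub, sub_mul, Matrix.mul_smul, Matrix.smul_mul, one_mul, mul_one,
      smul_smul] at hR
    rw [add_smul, ← sub_eq_zero, ← hR, mul_comm a l]
    abel
  refine ⟨(δ * δ) • (E * R - R * E), ?_, ?_⟩
  · rw [Matrix.trace_smul, Matrix.trace_sub, Matrix.trace_mul_comm, sub_self, smul_zero]
  · have key : (E * R - R * E) * R - R * (E * R - R * E) = ((a - l) * (a - l)) • E := by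
      have hRER : R * E * R = (a * l) • E := by
        rw [hRE, sub_mul, Matrix.smul_mul, mul_assoc, hRR, mul_sub, Matrix.mul_smul,
          Matrix.mul_smul, mul_one]
        module
      simp only [mul_sub, sub_mul, ← mul_assoc, hRER]
      rw [mul_assoc E R R, hRR]
      simp only [sub_mul, mul_sub, Matrix.smul_mul, Matrix.mul_smul, mul_one, one_mul, hRE]
      module
    rw [Matrix.smul_mul, Matrix.mul_smul, ← smul_sub, key, smul_smul,
      show δ * δ * ((a - l) * (a - l)) = (δ * (a - l)) * (δ * (a - l)) by ring, hδ,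
      inv_mul_cancel₀ (sub_ne_zero.mpr hne), one_mul, one_smul]

variable {p : ℕ} [Fact p.Prime] [CharP k p]

/-- **Local classes with a common line at `p`.** -/
theorem finrank_map_locClass_strict [Finite k] (hp2 : p ≠ 2) (ρ : MatRep k)
    (hρ : ∃ L : IntermediateField ℚ Qbar, FiniteDimensional ℚ L ∧
      ∀ σ : AbsGal, (∀ x ∈ L, σ x = x) → ρ σ = 1)
    (hdet : DetCyclotomic ρ p) {A : ValuationSubring Qbar} (hA : A.LiesOverPrime p)
    (a l : AbsGal → k)
    (hl : ∀ σ ∈ A.decompositionSubgroup ℚ, l σ * l σ = 1)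
    (hal : ∀ σ ∈ A.decompositionSubgroup ℚ, a σ * l σ = (ρ σ).det)
    (hprod : ∀ σ ∈ A.decompositionSubgroup ℚ, ∀ τ ∈ A.decompositionSubgroup ℚ,
      (ρ σ - a σ • 1) * (ρ τ - l τ • 1) = 0)
    (V : Submodule k (AbsGal → Matrix (Fin 2) (Fin 2) k))
    (hV : ∀ c ∈ V, IsAdCocycle ρ c ∧ ∀ M : MatRep (TrivSqZeroExt k k), IsDualLift ρ c M →
      ∀ σ ∈ A.decompositionSubgroup ℚ, ∀ τ ∈ A.decompositionSubgroup ℚ,
        (M σ - (TrivSqZeroExt.inl (a σ) : TrivSqZeroExt k k) • (1 : Matrix (Fin 2) (Fin 2) _)) *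
          (M τ - (TrivSqZeroExt.inl (l τ) : TrivSqZeroExt k k) • (1 : Matrix (Fin 2) (Fin 2) _))
            = 0) :
    Module.Finite k (V.map (locClass ρ (A.decompositionSubgroup ℚ))) ∧
      finrank k (V.map (locClass ρ (A.decompositionSubgroup ℚ))) ≤
        finrank k (adInvariants ρ A) + 1 := by
  classical
  obtain ⟨g₀, rfl⟩ := Density.exists_smul_eq_of_liesOverPrime Fact.out
    (padicPlace_liesOverPrime p) hA
  set D := (g₀ • padicPlace p).decompositionSubgroup ℚ
  let conj : Density.GalQ →* Density.GalQ := (MulAut.conj g₀).toMonoidHom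
  let r' := (glRep ρ).comp conj
  let ι : LocalGal p →* Density.GalQ := conj.comp (toGlobal p)
  have hιD : ∀ σ, ι σ ∈ D := fun σ =>
    conj_mem_decompositionSubgroup' (localGaloisToGlobal_mem_decompositionSubgroup p σ)
  have hιsurj : ∀ σ ∈ D, ∃ t, ι t = σ := fun σ hσ => by
    obtain ⟨t, ht⟩ := exists_toGlobal p (conj_mem_decompositionSubgroup hσ)
    exact ⟨t, by show g₀ * toGlobal p t * g₀⁻¹ = σ; rw [ht]; group⟩
  have hmat : ∀ t, mat (locHom p r') t = ρ (ι t) := fun _ => rfl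
  have hdetι : ∀ t, (ρ (ι t)).det =
      ZMod.castHom (dvd_refl p) k (ExtCitation.cycloChar p (toGlobal p t) : ZMod p) := fun t => by
    rw [← det_eq_cycloChar p hdet (toGlobal p t), mat_glRep,
      show ι t = g₀ * toGlobal p t * g₀⁻¹ from rfl, map_mul, map_mul, Matrix.det_mul,
      Matrix.det_mul, mul_right_comm, ← Matrix.det_mul, rep_mul_inv, Matrix.det_one, one_mul]
  -- an element with distinct diagonal values
  obtain ⟨σ₀, hσ₀⟩ := exists_locCyclo_ne_one p hp2
  set s := ι σ₀ with hs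
  have hsD : s ∈ D := hιD σ₀
  have hne : a s ≠ l s := fun h => by
    have h1 := hal s hsD
    rw [h, hl s hsD, hs, hdetι, ← map_one (ZMod.castHom (dvd_refl p) k)] at h1
    exact hσ₀ ((ZMod.castHom (dvd_refl p) k).injective h1).symm
  -- the frame
  have hQ : ρ s - a s • 1 ≠ 0 := fun h => by
    have h1 := hal s hsD
    rw [sub_eq_zero.mp h, Matrix.det_smul, Matrix.det_one, mul_one, Fintype.card_fin, pow_two]
      at h1
    rcases eq_or_ne (a s) 0 with h0 | h0
    · have h2 : IsUnit (ρ s).det :=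
        (Matrix.isUnit_iff_isUnit_det _).mp (IsUnit.of_mul_eq_one _ (rep_mul_inv ρ s))
      rw [sub_eq_zero.mp h, h0, zero_smul, Matrix.det_zero] at h2
      exact not_isUnit_zero h2
    · exact hne (mul_left_cancel₀ h0 h1).symm
  obtain ⟨i₀, hi₀⟩ : ∃ i, (ρ s - a s • 1) i ≠ 0 := by
    by_contra! h
    exact hQ (funext h)
  obtain ⟨g, hg⟩ := exists_frame _ hi₀
  have hgX : ∀ (X : Matrix (Fin 2) (Fin 2) k) j,
      ((g : Matrix (Fin 2) (Fin 2) k) * X) 1 j = ((ρ s - a s • 1) * X) i₀ j := fun X j => by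
    simp only [Matrix.mul_apply, hg]
  have hrow : ∀ τ ∈ D, ∀ j,
      ((g : Matrix (Fin 2) (Fin 2) k) * ρ τ) 1 j =
        l τ * (g : Matrix (Fin 2) (Fin 2) k) 1 j := fun τ hτ j => by
    have h := hprod s hsD τ hτ
    rw [mul_sub, Matrix.mul_smul, mul_one, sub_eq_zero] at h
    rw [hgX, h, hg, Matrix.smul_apply, smul_eq_mul]
  have hR : ∀ τ ∈ D,
      ((g : Matrix (Fin 2) (Fin 2) k) * ρ τ * (g⁻¹ : GL (Fin 2) k)) 1 0 = 0 ∧
      ((g : Matrix (Fin 2) (Fin 2) k) * ρ τ * (g⁻¹ : GL (Fin 2) k)) 1 1 = l τ ∧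
      ((g : Matrix (Fin 2) (Fin 2) k) * ρ τ * (g⁻¹ : GL (Fin 2) k)) 0 0 = a τ := fun τ hτ => by
    set Y := (g : Matrix (Fin 2) (Fin 2) k) * ρ τ * (g⁻¹ : GL (Fin 2) k) with hY
    have h10 : Y 1 0 = 0 := by rw [hY, frame_row_of_eigen g _ _ (hrow τ hτ)]; simp
    have h11 : Y 1 1 = l τ := by rw [hY, frame_row_of_eigen g _ _ (hrow τ hτ)]; simp
    refine ⟨h10, h11, ?_⟩
    have hd : Y.det = (ρ τ).det := by rw [hY, Matrix.det_units_conj]
    rw [← hal τ hτ, Matrix.det_fin_two, h10, h11, mul_zero, sub_zero] at hd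
    exact mul_right_cancel₀ (fun h0 => by simpa [h0] using hl τ hτ) hd
  obtain ⟨Lρ, hLρ, hLρ1⟩ := hρ
  have := hLρ
  have hmapfix : ∀ (L : IntermediateField ℚ Qbar) (σ : Density.GalQ),
      (∀ x ∈ L.map (g₀⁻¹ : Density.GalQ).toAlgHom, σ x = x) →
      ∀ x ∈ L, (conj σ) x = x := fun L σ h x hx => by
    show (g₀ * σ * g₀⁻¹) x = x
    have h1 : σ (g₀⁻¹ x) = g₀⁻¹ x := h (g₀⁻¹ x) ⟨x, hx, rfl⟩
    rw [AlgEquiv.mul_apply, AlgEquiv.mul_apply, h1, ← AlgEquiv.mul_apply,
      mul_inv_cancel, AlgEquiv.one_apply]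
  have hr' : GaloisFactorsThroughFiniteLevel r' :=
    ⟨Lρ.map (g₀⁻¹ : Density.GalQ).toAlgHom, inferInstance,
      fun σ hσ => Units.ext (hLρ1 _ (hmapfix Lρ σ hσ))⟩
  -- strictness of the restricted classes
  let res : (AbsGal → Matrix (Fin 2) (Fin 2) k) →ₗ[k] (LocalGal p → Matrix (Fin 2) (Fin 2) k) :=
    LinearMap.funLeft k _ ι
  have hstrict : ∀ d ∈ V.map res, IsStrictClass p r' g d := by
    rintro _ ⟨c, hc, rfl⟩
    obtain ⟨⟨hc1, hc2, Lc, hLc, hLc0⟩, hM⟩ := hV c hc
    have := hLc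
    refine ⟨⟨fun t => hc2 _, fun t u => ?_⟩, ⟨Lc.map (g₀⁻¹ : Density.GalQ).toAlgHom,
      inferInstance, fun t u hu => ?_⟩, ?_⟩
    · show c (ι (t * u)) = c (ι t) + adAct (locHom p r') t (c (ι u))
      rw [adAct, hmat, hmat, map_mul, hc1, map_inv ι]
    · show c (ι (t * u)) = c (ι t)
      rw [map_mul, hc1, hLc0 (ι u) (hmapfix Lc _ fun x hx =>
        (IntermediateField.mem_fixingSubgroup_iff _ _).mp hu x hx)]
      simp
    have hco : IsAdCocycleOn (glRep ρ) c := ⟨hc2, hc1⟩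
    have hid : ∀ σ ∈ D, ∀ τ ∈ D,
        c σ * ρ σ * (ρ τ - l τ • 1) + (ρ σ - a σ • 1) * (c τ * ρ τ) = 0 := fun σ hσ τ hτ =>
      snd_product_eq_zero (isDualLift_dualLift ρ hco)
        (hM _ (isDualLift_dualLift ρ hco) σ hσ τ hτ)
    obtain ⟨m, hm, hmE⟩ := exists_correction hne (hprod s hsD s hsD) (hid s hsD s hsD)
    refine ⟨-m, by rw [Matrix.trace_neg, hm, neg_zero], fun t => ?_⟩
    set τ := ι t with hτι
    have hτ : τ ∈ D := hιD t
    have he : res c t - (adAct (locHom p r') t (-m) - -m) = c τ - cobFun ρ m τ := by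
      show c τ - _ = _
      rw [adAct, hmat, hmat, map_inv ι, cobFun_apply, mul_neg, neg_mul, sub_neg_eq_add,
        neg_add_eq_sub]
    rw [he]
    set Z := c τ - cobFun ρ m τ with hZ
    have hE : (ρ s - a s • 1) * (Z * ρ τ) = 0 := by
      have h := hid s hsD τ hτ
      have hq := hprod s hsD τ hτ
      rw [← hmE] at h
      rw [hZ, sub_mul (c τ), cobFun_mul_rep, mul_sub, eq_neg_of_add_eq_zero_right h, ← sub_eq_zero]
      simp only [mul_sub, sub_mul, Matrix.mul_smul, Matrix.smul_mul, mul_one, one_mul] at hq ⊢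
      have hq2 : ρ s * ρ τ = a s • ρ τ + l τ • (ρ s - a s • 1) := by
        rw [← sub_eq_zero, ← hq]
        simp only [smul_sub]
        abel
      simp only [← mul_assoc, mul_assoc m, hq2, mul_add, add_mul, smul_sub, mul_sub, sub_mul,
        Matrix.mul_smul, Matrix.smul_mul, mul_one, one_mul, smul_smul]
      module
    have hE2 : (ρ s - a s • 1) * Z = 0 := by
      have h := congrArg (· * ρ τ⁻¹) hE
      simpa [mul_assoc, rep_mul_inv] using h
    have hrow0 : ∀ j, ((g : Matrix (Fin 2) (Fin 2) k) * Z * (g⁻¹ : GL (Fin 2) k)) 1 j = 0 :=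
      fun j => by
        rw [frame_row_of_eigen g Z 0 (fun j' => by rw [hgX, hE2]; simp), zero_mul]
    refine ⟨hrow0 0, ?_⟩
    have htr : ((g : Matrix (Fin 2) (Fin 2) k) * Z * (g⁻¹ : GL (Fin 2) k)).trace = 0 := by
      rw [Matrix.trace_units_conj, hZ, Matrix.trace_sub, hc2, cobFun_apply, Matrix.trace_sub,
        Matrix.trace_mul_cycle, rep_inv_mul, one_mul, sub_self, sub_zero]
    rwa [Matrix.trace_fin_two, hrow0 1, add_zero] at htr
  obtain ⟨hfin, hle⟩ := classDim_le_of_strict p hp2 r' hr' g (fun t => by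
    obtain ⟨h10, h11, h00⟩ := hR (ι t) (hιD t)
    rw [hmat]
    refine ⟨h10, ?_⟩
    rw [h00, h11, ← hdetι, ← hal _ (hιD t), mul_assoc, hl _ (hιD t), mul_one]) (V.map res) hstrict
  -- comparison with the classes on the decomposition group
  let f := (adCob (locHom p r')).mkQ.comp res
  have hmap : V.map f = (V.map res).map (adCob (locHom p r')).mkQ := Submodule.map_comp _ _ V
  have : Module.Finite k (V.map f) := by rw [hmap]; exact hfin
  obtain ⟨h1, h2⟩ := finrank_map_le_of_ker V (locClass ρ D) f fun c _ hfc => by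
    obtain ⟨m, -, hm⟩ := mem_adCob_iff.mp ((Submodule.Quotient.mk_eq_zero _).mp
      (show Submodule.Quotient.mk (res c) = (0 : _ ⧸ adCob (locHom p r')) from hfc))
    refine locClass_eq_zero_iff.mpr ⟨-m, fun σ hσ => ?_⟩
    obtain ⟨t, rfl⟩ := hιsurj σ hσ
    refine (hm t).trans ?_
    rw [adAct, hmat, hmat, map_inv ι, cobFun_apply, mul_neg, neg_mul, sub_neg_eq_add,
      neg_add_eq_sub]
  refine ⟨h1, h2.trans ?_⟩
  rw [hmap]
  refine hle.trans (Nat.add_le_add_right (le_of_eq ?_) 1)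
  refine congrArg (fun S : Submodule k (Matrix (Fin 2) (Fin 2) k) => finrank k S) ?_
  ext m
  · rw [mem_adFixed_iff]
    simp only [adInvariants, Submodule.mem_inf, LinearMap.mem_ker, Matrix.traceLinearMap_apply,
      Submodule.mem_iInf, LinearMap.mem_eqLocus, LinearMap.comp_apply, LinearMap.mulLeft_apply,
      LinearMap.mulRight_apply, LinearMap.id_apply, adAct, hmat, map_inv ι]
    refine and_congr_right fun _ => ⟨fun h σ hσ => ?_, fun h t => ?_⟩
    · obtain ⟨t, rfl⟩ := hιsurj σ hσ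
      rw [← mul_assoc]
      exact h t
    · rw [mul_assoc]
      exact h _ (hιD t)

end FLTAgent.LevelLowering

end
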