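import Fermat.Agent.LevelLowering.Selmer.SteinbergPlace
import Fermat.Agent.LevelLowering.Selmer.StrictPlace

/-!
# The tangent bound of level lowering

`finrank_selmer_add_sum_le`: if classes split at every place of the level satisfy the Selmer
bound `r`, then classes split at `A`, with Steinberg conditions at the ramified places `B` and a
common line at `p`, satisfy it with the local invariants at `A` only.  Used to count the
generators of the trace algebra in `LevelLowering.Tangent.Generators`.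
-/

set_option autoImplicit false

noncomputable section

open scoped TrivSqZeroExt
open Module

namespace FLTAgent.LevelLowering

open FLTAgent.ModularityLifting FLTAgent.DefRing

local notation "Qbar" => AlgebraicClosure ℚ

/-- **The tangent bound.** A space of classes, split at `A`, of Steinberg shape at the ramified
places `B` and with a common line at `p`, fits in the bound given for everywhere split classes. -/
theorem finrank_selmer_add_sum_le {p : ℕ} [Fact p.Prime] (hp2 : p ≠ 2) {k : Type} [Field k]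
    [Finite k] [CharP k p] (ρ : MatRep k)
    (hρ : ∃ L : IntermediateField ℚ Qbar, FiniteDimensional ℚ L ∧
      ∀ σ : AbsGal, (∀ x ∈ L, σ x = x) → ρ σ = 1)
    (hdet : DetCyclotomic ρ p)
    (loc A B : Finset ℕ) (hloc : ∀ v ∈ loc, v.Prime) (hA : A ⊆ loc)
    (hpA : p ∉ A) (hpB : p ∉ B)
    (hcover : ∀ v ∈ loc, v ∈ A ∨ v ∈ B ∨ v = p)
    (P : ℕ → ValuationSubring Qbar) (hP : ∀ v ∈ loc, (P v).LiesOverPrime v)
    (εB : ℕ → k)
    (hBram : ∀ v ∈ B, ¬ UnramifiedAt ρ v) (hBst : ∀ v ∈ B, SteinbergAt ρ v (εB v))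
    (a l : AbsGal → k)
    (hp_strict : p ∈ loc → (∀ σ ∈ (P p).decompositionSubgroup ℚ,
        l σ * l σ = 1 ∧ a σ * l σ = (ρ σ).det) ∧
      ∀ σ ∈ (P p).decompositionSubgroup ℚ, ∀ τ ∈ (P p).decompositionSubgroup ℚ,
        (ρ σ - a σ • 1) * (ρ τ - l τ • 1) = 0)
    {r : ℕ} (qv : Fin r → ℕ)
    (hr : ∀ V : Submodule k (AbsGal → Matrix (Fin 2) (Fin 2) k),
      (∀ c ∈ V, IsAdCocycle ρ c ∧
        (∀ q, q.Prime → q ∉ loc → q ≠ p → (∀ i, qv i ≠ q) →
          ∀ Q : ValuationSubring Qbar, Q.LiesOverPrime q → ∀ σ ∈ Q.inertiaSubgroupIn ℚ, c σ = 0) ∧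
        (∀ v ∈ loc, ∃ m, m.trace = 0 ∧ ∀ σ ∈ (P v).decompositionSubgroup ℚ,
          c σ = m - ρ σ * m * ρ σ⁻¹) ∧
        (p ∉ loc → ∀ M : MatRep (TrivSqZeroExt k k), IsDualLift ρ c M → FlatAt M p)) →
      Module.finrank k (V.map (adCoboundaries ρ).mkQ) +
        ∑ v ∈ loc, Module.finrank k (adInvariants ρ (P v)) + (if p ∈ loc then 1 else 0) ≤ r)
    (V : Submodule k (AbsGal → Matrix (Fin 2) (Fin 2) k))
    (hV : ∀ c ∈ V, IsAdCocycle ρ c ∧
      (∀ q, q.Prime → q ∉ loc → q ≠ p → (∀ i, qv i ≠ q) →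
        ∀ Q : ValuationSubring Qbar, Q.LiesOverPrime q → ∀ σ ∈ Q.inertiaSubgroupIn ℚ, c σ = 0) ∧
      (∀ v ∈ A, ∃ m, m.trace = 0 ∧ ∀ σ ∈ (P v).decompositionSubgroup ℚ,
        c σ = m - ρ σ * m * ρ σ⁻¹) ∧
      (∀ M : MatRep (TrivSqZeroExt k k), IsDualLift ρ c M →
        (∀ v ∈ B, SteinbergAt M v (TrivSqZeroExt.inl (εB v))) ∧
        (p ∈ loc → ∀ σ ∈ (P p).decompositionSubgroup ℚ, ∀ τ ∈ (P p).decompositionSubgroup ℚ,
          (M σ - (TrivSqZeroExt.inl (a σ) : TrivSqZeroExt k k) • (1 : Matrix (Fin 2) (Fin 2) _)) *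
            (M τ - (TrivSqZeroExt.inl (l τ) : TrivSqZeroExt k k) •
              (1 : Matrix (Fin 2) (Fin 2) _)) = 0) ∧
        (p ∉ loc → FlatAt M p))) :
    Module.finrank k (V.map (adCoboundaries ρ).mkQ) +
      ∑ v ∈ A, Module.finrank k (adInvariants ρ (P v)) ≤ r := by
  classical
  have : NeZero (2 : k) := ⟨fun h => hp2 (((Nat.prime_dvd_prime_iff_eq Fact.out Nat.prime_two).mp
    ((CharP.cast_eq_zero_iff k p 2).mp (by exact_mod_cast h))))⟩
  set h0 : ℕ → ℕ := fun v => finrank k (adInvariants ρ (P v)) with hh0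
  have hsum : ∑ v ∈ loc, h0 v = ∑ v ∈ loc \ A, h0 v + ∑ v ∈ A, h0 v :=
    (Finset.sum_sdiff hA).symm
  by_cases hfinV : ¬ Module.Finite k (V.map (adCoboundaries ρ).mkQ)
  · have h := hr ⊥ fun c hc => by
      rw [Submodule.mem_bot] at hc
      subst hc
      refine ⟨(zero_mem (cocycleSub ρ) : _), fun _ _ _ _ _ _ _ _ _ => rfl,
        fun v _ => ⟨0, by simp, fun σ _ => by simp⟩, fun hp M hM =>
          ((hV 0 V.zero_mem).2.2.2 M hM).2.2 hp⟩
    rw [Module.finrank_of_not_finite hfinV]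
    change _ + ∑ v ∈ loc, h0 v + _ ≤ r at h
    show _ + ∑ v ∈ A, h0 v ≤ r
    omega
  rw [not_not] at hfinV
  have := hfinV
  let Φ := LinearMap.pi fun v : ↥(loc \ A) =>
    locClass ρ ((P v).decompositionSubgroup ℚ)
  have hcob : adCoboundaries ρ ≤ LinearMap.ker Φ := fun c hc =>
    funext fun v => locClass_of_mem_adCoboundaries hc
  let Φbar := (adCoboundaries ρ).liftQ Φ hcob
  -- the everywhere split part
  let V1 := V ⊓ LinearMap.ker Φ
  have h1 := hr V1 fun c hc => by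
    obtain ⟨hc1, hunr, hsplit, hM⟩ := hV c hc.1
    refine ⟨hc1, hunr, fun v hv => ?_, fun hp M hMc => (hM M hMc).2.2 hp⟩
    by_cases hvA : v ∈ A
    · exact hsplit v hvA
    · obtain ⟨b, hb⟩ := locClass_eq_zero_iff.mp
        (congrFun (show Φ c = 0 from hc.2) ⟨v, Finset.mem_sdiff.mpr ⟨hv, hvA⟩⟩)
      obtain ⟨m, hm, hmb⟩ := exists_trace_zero ρ b
      exact ⟨m, hm, fun σ hσ => by rw [hb σ hσ, ← hmb, cobFun_apply]⟩
  -- the local parts
  have hloc' : ∀ v : ↥(loc \ A),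
      Module.Finite k (V.map (locClass ρ ((P v).decompositionSubgroup ℚ))) ∧
        finrank k (V.map (locClass ρ ((P v).decompositionSubgroup ℚ))) ≤
          h0 v + if (v : ℕ) = p then 1 else 0 := by
    rintro ⟨v, hv⟩
    obtain ⟨hvloc, hvA⟩ := Finset.mem_sdiff.mp hv
    rcases (hcover v hvloc).resolve_left hvA with hvB | rfl
    · have hne : v ≠ p := fun h => hpB (h ▸ hvB)
      obtain ⟨hf, hle⟩ := finrank_map_locClass_steinberg hp2 ρ hρ (hloc v hvloc) hne (hP v hvloc)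
        (hBram v hvB) (hBst v hvB) V fun c hc =>
          ⟨(hV c hc).1, fun M hM => ((hV c hc).2.2.2 M hM).1 v hvB⟩
      exact ⟨hf, hle.trans (Nat.le_add_right _ _)⟩
    · obtain ⟨hs1, hs2⟩ := hp_strict hvloc
      obtain ⟨hf, hle⟩ := finrank_map_locClass_strict hp2 ρ hρ hdet (hP v hvloc) a l
        (fun σ hσ => (hs1 σ hσ).1) (fun σ hσ => (hs1 σ hσ).2) hs2 V fun c hc =>
          ⟨(hV c hc).1, fun M hM => ((hV c hc).2.2.2 M hM).2.1 hvloc⟩
      exact ⟨hf, by rw [if_pos rfl]; exact hle⟩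
  obtain ⟨hfinΦ, hleΦ⟩ := finrank_map_pi_le V
    (fun v : ↥(loc \ A) => locClass ρ ((P v).decompositionSubgroup ℚ)) fun v => (hloc' v).1
  have hrange : finrank k (V.map Φ) ≤ ∑ v ∈ loc \ A, h0 v + if p ∈ loc then 1 else 0 := by
    refine hleΦ.trans ((Finset.sum_le_sum fun v _ => (hloc' v).2).trans ?_)
    rw [Finset.sum_coe_sort (loc \ A) fun v => h0 v + if v = p then 1 else 0,
      Finset.sum_add_distrib, Finset.sum_ite_eq']
    simp [hpA]
  -- rank and nullity
  have hrn := (Φbar.domRestrict (V.map (adCoboundaries ρ).mkQ)).finrank_range_add_finrank_ker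
  rw [LinearMap.range_domRestrict, ← Submodule.map_comp, Submodule.liftQ_mkQ] at hrn
  have hker : finrank k (LinearMap.ker (Φbar.domRestrict (V.map (adCoboundaries ρ).mkQ))) ≤
      finrank k (V1.map (adCoboundaries ρ).mkQ) := by
    have : Module.Finite k (V1.map (adCoboundaries ρ).mkQ) :=
      Submodule.finiteDimensional_of_le (Submodule.map_mono inf_le_left)
    rw [← Submodule.finrank_map_subtype_eq]
    refine Submodule.finrank_mono ?_
    rintro _ ⟨⟨_, ⟨c, hc, rfl⟩⟩, hy, rfl⟩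
    exact ⟨c, ⟨hc, hy⟩, rfl⟩
  change _ + ∑ v ∈ loc, h0 v + _ ≤ r at h1
  show _ + ∑ v ∈ A, h0 v ≤ r
  omega

end FLTAgent.LevelLowering

end
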