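import Fermat.Agent.ModularityLifting.TWPrimes
import Mathlib.LinearAlgebra.FiniteDimensional.Lemmas

/-!
# Local classes on decomposition groups

First order deformations (`IsDualLift`), classes of cocycles on a decomposition group
(`cocycleSub`, `locClass`), and elementary dimension counts used in the tangent bound of level
lowering.
-/

set_option autoImplicit false

noncomputable section

open scoped TrivSqZeroExt
open Module

namespace FLTAgent.LevelLowering

open FLTAgent.ModularityLifting FLTAgent.DefRing FLTAgent.TWPrimes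

/-- The first order deformation given by a cocycle. -/
def IsDualLift {k : Type} [Field k] (ρ : MatRep k) (c : AbsGal → Matrix (Fin 2) (Fin 2) k)
    (M : MatRep (TrivSqZeroExt k k)) : Prop :=
  ∀ σ i j, M σ i j = TrivSqZeroExt.inl (ρ σ i j) + TrivSqZeroExt.inr ((c σ * ρ σ) i j)

variable {k : Type} [Field k]

theorem isDualLift_dualLift (ρ : MatRep k) {c : AbsGal → Matrix (Fin 2) (Fin 2) k}
    (hc : IsAdCocycleOn (glRep ρ) c) : IsDualLift ρ c (dualLift ρ hc) :=
  fun _ _ _ => rfl

theorem IsDualLift.snd_eq {ρ : MatRep k} {c : AbsGal → Matrix (Fin 2) (Fin 2) k}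
    {M : MatRep (TrivSqZeroExt k k)} (h : IsDualLift ρ c M) (σ : AbsGal) :
    (M σ).map TrivSqZeroExt.fst = ρ σ ∧ (M σ).map TrivSqZeroExt.snd = c σ * ρ σ := by
  constructor <;>
  · ext i j
    simp [h σ i j]

theorem snd_mul' (X Y : Matrix (Fin 2) (Fin 2) (TrivSqZeroExt k k)) :
    (X * Y).map TrivSqZeroExt.snd = X.map TrivSqZeroExt.fst * Y.map TrivSqZeroExt.snd +
      X.map TrivSqZeroExt.snd * Y.map TrivSqZeroExt.fst := by
  ext i j
  simp [Matrix.mul_apply, Fin.sum_univ_two, MulOpposite.smul_eq_mul_unop]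
  ring

/-- The finite level cocycles with a linear condition. -/
def cocycleSub (ρ : MatRep k) : Submodule k (AbsGal → Matrix (Fin 2) (Fin 2) k) where
  carrier := {c | IsAdCocycle ρ c}
  zero_mem' := ⟨fun _ _ => by simp, fun _ => by simp, ⊥, inferInstance, fun _ _ => rfl⟩
  add_mem' := by
    rintro a b ⟨a1, a2, La, hLa, a3⟩ ⟨b1, b2, Lb, hLb, b3⟩
    have := hLa
    have := hLb
    refine ⟨fun σ τ => ?_, fun σ => by rw [Pi.add_apply, Matrix.trace_add, a2, b2, add_zero],
      La ⊔ Lb, inferInstance, fun σ h => ?_⟩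
    · simp only [Pi.add_apply, a1 σ τ, b1 σ τ, mul_add, add_mul]
      abel
    · rw [Pi.add_apply, a3 σ fun x hx => h x (le_sup_left (b := Lb) hx),
        b3 σ fun x hx => h x (le_sup_right (a := La) hx), add_zero]
  smul_mem' := by
    rintro t a ⟨a1, a2, La, hLa, a3⟩
    refine ⟨fun σ τ => ?_, fun σ => by rw [Pi.smul_apply, Matrix.trace_smul, a2, smul_zero],
      La, hLa, fun σ h => by rw [Pi.smul_apply, a3 σ h, smul_zero]⟩
    simp only [Pi.smul_apply, a1 σ τ, smul_add, Matrix.mul_smul, Matrix.smul_mul]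

theorem mem_cocycleSub {ρ : MatRep k} {c : AbsGal → Matrix (Fin 2) (Fin 2) k} :
    c ∈ cocycleSub ρ ↔ IsAdCocycle ρ c := Iff.rfl

theorem IsAdCocycle.map_one_eq {ρ : MatRep k} {c : AbsGal → Matrix (Fin 2) (Fin 2) k}
    (hc : IsAdCocycle ρ c) : c 1 = 0 := by
  have h := hc.1 1 1
  simpa using h

/-- The coboundary of a matrix. -/
def cobFun (ρ : MatRep k) :
    Matrix (Fin 2) (Fin 2) k →ₗ[k] AbsGal → Matrix (Fin 2) (Fin 2) k where
  toFun a σ := a - ρ σ * a * ρ σ⁻¹
  map_add' a b := funext fun σ => by simp [mul_add, add_mul]; abel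
  map_smul' t a := funext fun σ => by simp [smul_sub]

theorem cobFun_apply (ρ : MatRep k) (a : Matrix (Fin 2) (Fin 2) k) (σ : AbsGal) :
    cobFun ρ a σ = a - ρ σ * a * ρ σ⁻¹ := rfl

theorem mem_adCoboundaries {ρ : MatRep k} {c : AbsGal → Matrix (Fin 2) (Fin 2) k} :
    c ∈ adCoboundaries ρ ↔ ∃ a, cobFun ρ a = c := Iff.rfl

theorem rep_mul_inv (ρ : MatRep k) (σ : AbsGal) : ρ σ * ρ σ⁻¹ = 1 := by
  rw [← map_mul, mul_inv_cancel, map_one]

theorem rep_inv_mul (ρ : MatRep k) (σ : AbsGal) : ρ σ⁻¹ * ρ σ = 1 := by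
  rw [← map_mul, inv_mul_cancel, map_one]

theorem cobFun_scalar (ρ : MatRep k) (t : k) : cobFun ρ (t • 1) = 0 := by
  funext σ
  rw [cobFun_apply, Matrix.mul_smul, mul_one, Matrix.smul_mul, rep_mul_inv, sub_self, Pi.zero_apply]

theorem cobFun_mul_rep (ρ : MatRep k) (a : Matrix (Fin 2) (Fin 2) k) (σ : AbsGal) :
    cobFun ρ a σ * ρ σ = a * ρ σ - ρ σ * a := by
  rw [cobFun_apply, sub_mul, mul_assoc (ρ σ * a), rep_inv_mul, mul_one]

theorem cobFun_mem_cocycleSub {ρ : MatRep k}
    (hρ : ∃ L : IntermediateField ℚ (AlgebraicClosure ℚ), FiniteDimensional ℚ L ∧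
      ∀ σ : AbsGal, (∀ x ∈ L, σ x = x) → ρ σ = 1)
    (a : Matrix (Fin 2) (Fin 2) k) : cobFun ρ a ∈ cocycleSub ρ := by
  obtain ⟨L, hL, h1⟩ := hρ
  refine ⟨fun σ τ => ?_, fun σ => ?_, L, hL, fun σ h => ?_⟩
  · simp only [cobFun_apply, mul_inv_rev, map_mul, mul_sub, sub_mul, mul_assoc]
    abel
  · rw [cobFun_apply, Matrix.trace_sub, Matrix.trace_mul_cycle, rep_inv_mul, one_mul, sub_self]
  · rw [cobFun_apply, h1 σ h, h1 σ⁻¹ fun x hx => by
      show σ.symm x = x
      rw [AlgEquiv.symm_apply_eq, h x hx]]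
    simp

/-- Replacing a matrix by its trace zero part does not change its coboundary. -/
theorem exists_trace_zero [NeZero (2 : k)] (ρ : MatRep k) (a : Matrix (Fin 2) (Fin 2) k) :
    ∃ m : Matrix (Fin 2) (Fin 2) k, m.trace = 0 ∧ cobFun ρ m = cobFun ρ a := by
  refine ⟨a - (a.trace / 2) • 1, ?_, ?_⟩
  · rw [Matrix.trace_sub, Matrix.trace_smul, Matrix.trace_one]
    simp [div_mul_cancel₀ _ (NeZero.ne (2 : k))]
  · rw [map_sub, cobFun_scalar, sub_zero]

/-- The coboundaries on a decomposition group. -/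
def cobOn (ρ : MatRep k) (D : Subgroup AbsGal) : Submodule k (D → Matrix (Fin 2) (Fin 2) k) :=
  (adCoboundaries ρ).map (LinearMap.funLeft k _ Subtype.val)

/-- The class of a cochain on a decomposition group. -/
def locClass (ρ : MatRep k) (D : Subgroup AbsGal) :
    (AbsGal → Matrix (Fin 2) (Fin 2) k) →ₗ[k] (D → Matrix (Fin 2) (Fin 2) k) ⧸ cobOn ρ D :=
  (cobOn ρ D).mkQ ∘ₗ LinearMap.funLeft k _ Subtype.val

theorem locClass_eq_zero_iff {ρ : MatRep k} {D : Subgroup AbsGal}
    {c : AbsGal → Matrix (Fin 2) (Fin 2) k} :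
    locClass ρ D c = 0 ↔ ∃ a, ∀ σ ∈ D, c σ = cobFun ρ a σ := by
  rw [locClass, LinearMap.comp_apply, Submodule.mkQ_apply, Submodule.Quotient.mk_eq_zero, cobOn,
    Submodule.mem_map]
  constructor
  · rintro ⟨_, ⟨a, rfl⟩, h⟩
    exact ⟨a, fun σ hσ => (congrFun h ⟨σ, hσ⟩).symm⟩
  · rintro ⟨a, h⟩
    exact ⟨cobFun ρ a, ⟨a, rfl⟩, funext fun σ => (h σ.1 σ.2).symm⟩

theorem locClass_of_mem_adCoboundaries {ρ : MatRep k} {D : Subgroup AbsGal}
    {c : AbsGal → Matrix (Fin 2) (Fin 2) k} (hc : c ∈ adCoboundaries ρ) :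
    locClass ρ D c = 0 := by
  obtain ⟨a, rfl⟩ := hc
  exact locClass_eq_zero_iff.mpr ⟨a, fun _ _ => rfl⟩

section Dimension

variable {E F G : Type*} [AddCommGroup E] [Module k E] [AddCommGroup F] [Module k F]
  [AddCommGroup G] [Module k G]

/-- A map vanishing where another one does has the smaller image. -/
theorem finrank_map_le_of_ker (V : Submodule k E) (f : E →ₗ[k] F) (g : E →ₗ[k] G)
    [Module.Finite k (V.map g)] (h : ∀ c ∈ V, g c = 0 → f c = 0) :
    Module.Finite k (V.map f) ∧ finrank k (V.map f) ≤ finrank k (V.map g) := by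
  have hker : LinearMap.ker (g.domRestrict V) ≤ LinearMap.ker (f.domRestrict V) :=
    fun c hc => h c.1 c.2 hc
  have hrf : LinearMap.range (f.domRestrict V) = V.map f := LinearMap.range_domRestrict ..
  have hrg : LinearMap.range (g.domRestrict V) = V.map g := LinearMap.range_domRestrict ..
  have : Module.Finite k (LinearMap.range (g.domRestrict V)) := by rw [hrg]; infer_instance
  let e := (g.domRestrict V).quotKerEquivRange
  have : Module.Finite k (V ⧸ LinearMap.ker (g.domRestrict V)) :=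
    Module.Finite.equiv e.symm
  have hr : LinearMap.range ((LinearMap.ker (g.domRestrict V)).liftQ (f.domRestrict V) hker) =
      V.map f := by rw [Submodule.range_liftQ, hrf]
  refine ⟨?_, ?_⟩
  · rw [← hr]; infer_instance
  · rw [← hr]
    refine (LinearMap.finrank_range_le _).trans (le_of_eq ?_)
    rw [e.finrank_eq, hrg]

/-- Dividing by a contained finite dimensional subspace. -/
theorem finrank_map_mkQ_add (P W : Submodule k E) (hPW : P ≤ W) [Module.Finite k W] :
    finrank k (W.map P.mkQ) + finrank k P = finrank k W := by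
  have h := (P.mkQ.domRestrict W).finrank_range_add_finrank_ker
  rw [LinearMap.range_domRestrict, LinearMap.ker_domRestrict, Submodule.ker_mkQ] at h
  rwa [(Submodule.comapSubtypeEquivOfLe hPW).finrank_eq] at h

/-- The image in a product has at most the sum of the dimensions of the images. -/
theorem finrank_map_pi_le {ι : Type*} [Fintype ι] {Q : ι → Type*} [∀ i, AddCommGroup (Q i)]
    [∀ i, Module k (Q i)] (V : Submodule k E) (f : ∀ i, E →ₗ[k] Q i)
    (hfin : ∀ i, Module.Finite k (V.map (f i))) :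
    Module.Finite k (V.map (LinearMap.pi f)) ∧
      finrank k (V.map (LinearMap.pi f)) ≤ ∑ i, finrank k (V.map (f i)) := by
  have := hfin
  let inc : V.map (LinearMap.pi f) →ₗ[k] ∀ i, V.map (f i) := LinearMap.pi fun i =>
    ((LinearMap.proj i).comp (V.map (LinearMap.pi f)).subtype).codRestrict (V.map (f i))
      fun x => by
        obtain ⟨c, hc, e⟩ := x.2
        exact ⟨c, hc, congrFun e i⟩
  have hinj : Function.Injective inc := fun x y h => Subtype.ext (funext fun i =>
    congrArg Subtype.val (congrFun h i))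
  refine ⟨Module.Finite.of_injective inc hinj, ?_⟩
  exact (LinearMap.finrank_le_finrank_of_injective hinj).trans_eq
    (Module.finrank_pi_fintype k)

theorem finrank_trace_zero :
    finrank k (LinearMap.ker (Matrix.traceLinearMap (Fin 2) k k)) = 3 := by
  have hsurj : Function.Surjective (Matrix.traceLinearMap (Fin 2) k k) := fun t =>
    ⟨Matrix.single 0 0 t, by simp⟩
  have h := (Matrix.traceLinearMap (Fin 2) k k).finrank_range_add_finrank_ker
  rw [LinearMap.range_eq_top.mpr hsurj, finrank_top, Module.finrank_self, Module.finrank_matrix,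
    Fintype.card_fin, Module.finrank_self] at h
  omega

end Dimension

end FLTAgent.LevelLowering

end
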