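import Fermat.Agent.LevelLowering.Selmer.Basic
import Fermat.Agent.ModularityLifting.Engine.LocalVanish

/-!
# Local classes at ramified Steinberg places

A class of Steinberg shape is determined by its values at a tame generator and at a Frobenius
element; the possible pairs of values form a space of dimension at most three.  Hence
`finrank_map_locClass_steinberg`, the local term of the tangent bound at such a place.
-/

set_option autoImplicit false

noncomputable section

open scoped TrivSqZeroExt Pointwise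
open Module

namespace FLTAgent.LevelLowering

open FLTAgent.ModularityLifting FLTAgent.DefRing

local notation "Qbar" => AlgebraicClosure ℚ

variable {k : Type} [Field k]

/-- A nilpotent two by two matrix with zero off-diagonal entries is zero. -/
theorem offDiag_ne_zero {n : Matrix (Fin 2) (Fin 2) k} (hn : n * n = 0) (hne : n ≠ 0) :
    n 0 1 ≠ 0 ∨ n 1 0 ≠ 0 := by
  by_contra h
  push Not at h
  obtain ⟨h01, h10⟩ := h
  have h00 : n 0 0 * n 0 0 = 0 := by
    simpa [Matrix.mul_apply, Fin.sum_univ_two, h01] using congrFun (congrFun hn 0) 0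
  have h11 : n 1 1 * n 1 1 = 0 := by
    simpa [Matrix.mul_apply, Fin.sum_univ_two, h10] using congrFun (congrFun hn 1) 1
  refine hne ?_
  ext i j
  fin_cases i <;> fin_cases j <;> simp_all

/-- A trace zero matrix commuting with a nonzero nilpotent is a multiple of it. -/
theorem exists_smul_of_commute [NeZero (2 : k)] {n Y : Matrix (Fin 2) (Fin 2) k}
    (hn : n * n = 0) (hne : n ≠ 0) (hY : Y.trace = 0) (h : n * Y = Y * n) :
    ∃ t : k, t • n = Y := by
  have h2 : (2 : k) ≠ 0 := NeZero.ne _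
  have htn : n.trace = 0 := by
    have := (Matrix.isNilpotent_trace_of_isNilpotent (⟨2, by rw [pow_two, hn]⟩ : IsNilpotent n))
    exact isNilpotent_iff_eq_zero.mp this
  rw [Matrix.trace_fin_two] at hY htn
  have h00 := congrFun (congrFun h 0) 0
  have h01 := congrFun (congrFun h 0) 1
  have h10 := congrFun (congrFun h 1) 0
  simp only [Matrix.mul_apply, Fin.sum_univ_two] at h00 h01 h10
  rcases offDiag_ne_zero hn hne with hx | hx
  · refine ⟨Y 0 1 / n 0 1, ?_⟩
    ext i j
    fin_cases i <;> fin_cases j <;>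
      simp only [Fin.zero_eta, Fin.mk_one, Matrix.smul_apply, smul_eq_mul] <;> field_simp
    · refine mul_left_cancel₀ h2 ?_
      linear_combination h01 - n 0 1 * hY + Y 0 1 * htn
    · linear_combination -h00
    · refine mul_left_cancel₀ h2 ?_
      linear_combination -h01 - n 0 1 * hY + Y 0 1 * htn
  · refine ⟨Y 1 0 / n 1 0, ?_⟩
    ext i j
    fin_cases i <;> fin_cases j <;>
      simp only [Fin.zero_eta, Fin.mk_one, Matrix.smul_apply, smul_eq_mul] <;> field_simp
    · refine mul_left_cancel₀ h2 ?_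
      linear_combination -h10 - n 1 0 * hY + Y 1 0 * htn
    · linear_combination h00
    · refine mul_left_cancel₀ h2 ?_
      linear_combination h10 - n 1 0 * hY + Y 1 0 * htn

/-- The trace zero matrices anticommuting with a nonzero nilpotent form at most a plane. -/
theorem finrank_anticommute_le {n : Matrix (Fin 2) (Fin 2) k} (hn : n * n = 0) (hne : n ≠ 0) :
    finrank k ↥(LinearMap.ker (Matrix.traceLinearMap (Fin 2) k k) ⊓
      LinearMap.ker (LinearMap.mulLeft k n + LinearMap.mulRight k n)) ≤ 2 := by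
  have hlt : LinearMap.ker (Matrix.traceLinearMap (Fin 2) k k) ⊓
      LinearMap.ker (LinearMap.mulLeft k n + LinearMap.mulRight k n) <
      LinearMap.ker (Matrix.traceLinearMap (Fin 2) k k) := by
    refine lt_of_le_not_ge inf_le_left fun hle => ?_
    have hmem : ∀ Y : Matrix (Fin 2) (Fin 2) k, Y.trace = 0 → n * Y + Y * n = 0 := fun Y hY => by
      have := (hle (show Y ∈ LinearMap.ker (Matrix.traceLinearMap (Fin 2) k k) from hY)).2
      simpa using this
    rcases offDiag_ne_zero hn hne with h | h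
    · have := congrFun (congrFun (hmem (Matrix.single 1 0 1) (by simp)) 0) 0
      exact h (by simpa [Matrix.mul_apply, Fin.sum_univ_two] using this)
    · have := congrFun (congrFun (hmem (Matrix.single 0 1 1) (by simp)) 1) 1
      exact h (by simpa [Matrix.mul_apply, Fin.sum_univ_two] using this)
  have := Submodule.finrank_lt_finrank_of_lt hlt
  rw [finrank_trace_zero] at this
  omega

/-- The blocks of a cocycle have `p`-power order on unipotent inertia. -/
theorem blockRep_pow_eq_one {p : ℕ} [Fact p.Prime] [CharP k p] (ρ : MatRep k)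
    (e : AbsGal → Matrix (Fin 2) (Fin 2) k)
    (he : ∀ σ τ, e (σ * τ) = e σ + ρ σ * e τ * ρ σ⁻¹) {σ : AbsGal} (hσ : (ρ σ - 1) ^ 2 = 0) :
    Engine.blockRep ρ e he σ ^ p ^ 2 = 1 := by
  have : CharP (Matrix (Fin 2 ⊕ Fin 2) (Fin 2 ⊕ Fin 2) k) p :=
    charP_of_injective_algebraMap (algebraMap k _).injective p
  set N := Engine.blockRep ρ e he σ
  have hZ : (N - 1) ^ 4 = 0 := by
    have hN1 : N - 1 = Matrix.fromBlocks (ρ σ - 1) (e σ * ρ σ) 0 (ρ σ - 1) := by
      show Matrix.fromBlocks (ρ σ) (e σ * ρ σ) 0 (ρ σ) - 1 = _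
      rw [← Matrix.fromBlocks_one, sub_eq_add_neg, Matrix.fromBlocks_neg, Matrix.fromBlocks_add]
      simp [sub_eq_add_neg]
    have h2 : (ρ σ - 1) * (ρ σ - 1) = 0 := by rw [← pow_two]; exact hσ
    have hsq : (N - 1) ^ 2 = Matrix.fromBlocks 0
        ((ρ σ - 1) * (e σ * ρ σ) + e σ * ρ σ * (ρ σ - 1)) 0 0 := by
      rw [pow_two, hN1, Matrix.fromBlocks_multiply, h2]
      simp
    rw [show (4 : ℕ) = 2 * 2 from rfl, pow_mul, hsq, pow_two, Matrix.fromBlocks_multiply]
    simp
  have hp4 : 4 ≤ p ^ 2 := Nat.pow_le_pow_left (Fact.out : p.Prime).two_le 2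
  have := sub_pow_char_pow_of_commute p 2 (Commute.one_right N)
  rw [pow_eq_zero_of_le hp4 hZ, one_pow] at this
  exact sub_eq_zero.mp this.symm

/-- Ramified unipotent inertia at `v` is nontrivial at a tame generator. -/
theorem tame_ne_one {p : ℕ} [Fact p.Prime] [CharP k p] {ρ : MatRep k}
    (hρ : ∃ L : IntermediateField ℚ Qbar, FiniteDimensional ℚ L ∧
      ∀ σ : AbsGal, (∀ x ∈ L, σ x = x) → ρ σ = 1)
    {v : ℕ} (hv : v.Prime) (hvp : v ≠ p) {A : ValuationSubring Qbar} (hA : A.LiesOverPrime v)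
    {x : Qbar} (hx : x ^ p = (v : Qbar)) {τ : AbsGal} (hτ : τ ∈ A.inertiaSubgroupIn ℚ)
    (hτx : τ x ≠ x) (hu : ∀ σ ∈ A.inertiaSubgroupIn ℚ, (ρ σ - 1) ^ 2 = 0)
    (hram : ¬ UnramifiedAt ρ v) : ρ τ ≠ 1 := by
  intro h1
  obtain ⟨L, hL, hL1⟩ := hρ
  have := hL
  have : CharP (Matrix (Fin 2) (Fin 2) k) p :=
    charP_of_injective_algebraMap (algebraMap k _).injective p
  have hgen := (tame_generator (Fact.out : p.Prime) hv hvp hA hx hτ hτx (glRep ρ) L
    (fun σ hσ => Units.ext (hL1 σ hσ)) 1 fun σ hσ => Units.ext (by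
      rw [Units.val_pow_eq_pow_val, pow_one, Units.val_one]
      show ρ σ ^ p = 1
      have h := sub_pow_char_of_commute (p := p) (Commute.one_right (ρ σ))
      rw [pow_eq_zero_of_le (Fact.out : p.Prime).two_le (hu σ hσ), one_pow] at h
      exact sub_eq_zero.mp h.symm)).1
  refine hram fun Q hQ σ hσ => ?_
  obtain ⟨g, rfl⟩ := Density.exists_smul_eq_of_liesOverPrime hv hA hQ
  have hσ' : g⁻¹ * σ * g ∈ A.inertiaSubgroupIn ℚ := by
    have h := Density.mem_inertiaSubgroupIn_smul hσ g⁻¹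
    rwa [inv_inv, ← mul_smul, inv_mul_cancel, one_smul] at h
  obtain ⟨j, hj⟩ := hgen _ hσ'
  rw [show glRep ρ τ = 1 from Units.ext h1, one_zpow] at hj
  have h2 : ρ (g⁻¹ * σ * g) = 1 := congrArg Units.val hj
  calc ρ σ = ρ g * ρ (g⁻¹ * σ * g) * ρ g⁻¹ := by
        rw [← map_mul, ← map_mul]; congr 1; group
    _ = 1 := by rw [h2, mul_one, rep_mul_inv]

/-- The Steinberg condition at a tame element. -/
def steinbergSub (ρ : MatRep k) (τ : AbsGal) :
    Submodule k (AbsGal → Matrix (Fin 2) (Fin 2) k) :=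
  cocycleSub ρ ⊓ LinearMap.ker
    ((LinearMap.mulLeft k (ρ τ - 1) + LinearMap.mulRight k (ρ τ - 1)).comp (LinearMap.proj τ))

theorem mem_steinbergSub {ρ : MatRep k} {τ : AbsGal}
    {c : AbsGal → Matrix (Fin 2) (Fin 2) k} :
    c ∈ steinbergSub ρ τ ↔
      IsAdCocycle ρ c ∧ (ρ τ - 1) * c τ + c τ * (ρ τ - 1) = 0 := by
  simp [steinbergSub, mem_cocycleSub]

theorem cobFun_mem_steinbergSub {ρ : MatRep k}
    (hρ : ∃ L : IntermediateField ℚ Qbar, FiniteDimensional ℚ L ∧
      ∀ σ : AbsGal, (∀ x ∈ L, σ x = x) → ρ σ = 1)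
    {τ : AbsGal} (hτ : (ρ τ - 1) * (ρ τ - 1) = 0) (a : Matrix (Fin 2) (Fin 2) k) :
    cobFun ρ a ∈ steinbergSub ρ τ := by
  refine mem_steinbergSub.mpr ⟨cobFun_mem_cocycleSub hρ a, ?_⟩
  set n := ρ τ - 1 with hn
  have hρτ : ρ τ = 1 + n := (add_sub_cancel _ _).symm
  have hinv : ρ τ⁻¹ = 1 - n := by
    calc ρ τ⁻¹ = ρ τ⁻¹ * ((1 + n) * (1 - n)) := by
          rw [add_mul, mul_sub n, hτ]; simp
      _ = 1 - n := by rw [← hρτ, ← mul_assoc, rep_inv_mul, one_mul]
  rw [cobFun_apply, hinv, hρτ]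
  simp only [mul_sub, sub_mul, mul_add, add_mul, mul_one, one_mul, mul_assoc, hτ, mul_zero]
  simp only [← mul_assoc, hτ, zero_mul, sub_zero, add_zero]
  abel

theorem mem_steinbergSub_of_dualLift {ρ : MatRep k} {τ : AbsGal}
    (hτ : (ρ τ - 1) * (ρ τ - 1) = 0) {c : AbsGal → Matrix (Fin 2) (Fin 2) k}
    (hc : IsAdCocycle ρ c) {M : MatRep (TrivSqZeroExt k k)} (hM : IsDualLift ρ c M)
    (h : (M τ - 1) ^ 2 = 0) : c ∈ steinbergSub ρ τ := by
  refine mem_steinbergSub.mpr ⟨hc, ?_⟩
  set n := ρ τ - 1 with hn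
  set X := c τ
  obtain ⟨hf, hs⟩ := hM.snd_eq τ
  have hf1 : (M τ - 1).map TrivSqZeroExt.fst = n := by
    rw [hn, ← hf]
    ext i j
    by_cases hij : i = j <;> simp [hij]
  have hs1 : (M τ - 1).map TrivSqZeroExt.snd = X * ρ τ := by
    rw [← hs]
    ext i j
    by_cases hij : i = j <;> simp [hij]
  have h2 : n * (X * ρ τ) + X * ρ τ * n = 0 := by
    have := congrArg (fun Y : Matrix (Fin 2) (Fin 2) (TrivSqZeroExt k k) =>
      Y.map TrivSqZeroExt.snd) h
    rw [pow_two, snd_mul', hf1, hs1] at this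
    rw [this]
    ext i j
    simp
  rw [show ρ τ = 1 + n from (add_sub_cancel _ _).symm, mul_add, mul_one, mul_add,
    add_mul, mul_assoc X n n, hτ, mul_zero, add_zero] at h2
  have h3 : n * X * n = 0 := by
    have := congrArg (n * ·) h2
    simpa [mul_add, ← mul_assoc, hτ] using this
  rwa [← mul_assoc n X n, h3, add_zero] at h2

/-- **Local classes at a ramified Steinberg place.** -/
theorem finrank_map_locClass_steinberg {p : ℕ} [Fact p.Prime] [CharP k p] (hp2 : p ≠ 2)
    (ρ : MatRep k)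
    (hρ : ∃ L : IntermediateField ℚ Qbar, FiniteDimensional ℚ L ∧
      ∀ σ : AbsGal, (∀ x ∈ L, σ x = x) → ρ σ = 1)
    {v : ℕ} (hv : v.Prime) (hvp : v ≠ p) {A : ValuationSubring Qbar} (hA : A.LiesOverPrime v)
    {ε : k} (hram : ¬ UnramifiedAt ρ v) (hst : SteinbergAt ρ v ε)
    (V : Submodule k (AbsGal → Matrix (Fin 2) (Fin 2) k))
    (hV : ∀ c ∈ V, IsAdCocycle ρ c ∧ ∀ M : MatRep (TrivSqZeroExt k k), IsDualLift ρ c M →
      SteinbergAt M v (TrivSqZeroExt.inl ε)) :
    Module.Finite k (V.map (locClass ρ (A.decompositionSubgroup ℚ))) ∧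
      finrank k (V.map (locClass ρ (A.decompositionSubgroup ℚ))) ≤
        finrank k (adInvariants ρ A) := by
  classical
  have hp : p.Prime := Fact.out
  have : NeZero (2 : k) := ⟨fun h => hp2 (((Nat.prime_dvd_prime_iff_eq hp Nat.prime_two).mp
    ((CharP.cast_eq_zero_iff k p 2).mp (by exact_mod_cast h))))⟩
  obtain ⟨Lρ, hLρ, hLρ1⟩ := id hρ
  have := hLρ
  obtain ⟨x, hx, τ, hτ, hτx⟩ := exists_tame_element hp hv hA
  obtain ⟨Φ, hΦ⟩ := Density.exists_isFrobeniusAt A hv hA
  have hu := (hst A hA).1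
  have hne1 := tame_ne_one hρ hv hvp hA hx hτ hτx hu hram
  set n := ρ τ - 1 with hn
  have hne : n ≠ 0 := sub_ne_zero.mpr hne1
  have hnn : n * n = 0 := by rw [← pow_two]; exact hu τ hτ
  have hρτ : ρ τ = 1 + n := (add_sub_cancel _ _).symm
  have hvk : (v : k) ≠ 0 := fun h => hvp (((Nat.prime_dvd_prime_iff_eq hp hv).mp
    ((CharP.cast_eq_zero_iff k p v).mp h)).symm)
  have hpow : ∀ j : ℕ, ρ τ ^ j = 1 + (j : k) • n := fun j => by
    induction j with
    | zero => simp
    | succ j ih =>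
      rw [pow_succ, ih, hρτ, add_mul, one_mul, smul_mul_assoc, mul_add, hnn, mul_one,
        add_zero, Nat.cast_succ, add_smul, one_smul]
      abel
  -- vanishing on the decomposition group
  have hvanish : ∀ c, IsAdCocycle ρ c → c τ = 0 → c Φ = 0 →
      ∀ σ ∈ A.decompositionSubgroup ℚ, c σ = 0 := by
    rintro c ⟨hc1, -, Lc, hLc, hLc0⟩ h1 h2
    have := hLc
    exact Engine.cocycle_eq_zero_of_tame ρ c hp hv hvp hA hΦ hτ ⟨x, hx, hτx⟩ hc1 (Lρ ⊔ Lc)
      (fun σ h => ⟨hLρ1 σ fun y hy => h y (le_sup_left (b := Lc) hy),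
        hLc0 σ fun y hy => h y (le_sup_right (a := Lρ) hy)⟩) hu h1 h2
  set T := steinbergSub ρ τ
  let ψ : (AbsGal → Matrix (Fin 2) (Fin 2) k) →ₗ[k]
      Matrix (Fin 2) (Fin 2) k × Matrix (Fin 2) (Fin 2) k :=
    (LinearMap.proj τ).prod (LinearMap.proj Φ)
  -- a class vanishing at the tame generator takes a value in a line at Frobenius
  have hline : ∀ c, IsAdCocycle ρ c → c τ = 0 → ∃ t : k, t • n = c Φ := by
    rintro c ⟨hc1, hc2, Lc, hLc, hLc0⟩ hcτ
    have := hLc
    obtain ⟨-, hgen⟩ := tame_generator hp hv hvp hA hx hτ hτx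
      (Engine.blockRep ρ c hc1).toHomUnits (Lρ ⊔ Lc) (fun σ h => Units.ext (by
        show Matrix.fromBlocks (ρ σ) (c σ * ρ σ) 0 (ρ σ) = 1
        rw [hLρ1 σ fun y hy => h y (le_sup_left (b := Lc) hy),
          hLc0 σ fun y hy => h y (le_sup_right (a := Lρ) hy), zero_mul,
          Matrix.fromBlocks_one])) 2 (fun σ hσ => Units.ext (by
        rw [Units.val_pow_eq_pow_val, Units.val_one]
        exact blockRep_pow_eq_one ρ c hc1 (hu σ hσ)))
    set s := Φ * τ * Φ⁻¹ with hs
    have hb : Engine.blockRep ρ c hc1 s = Engine.blockRep ρ c hc1 (τ ^ v) := by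
      rw [map_pow]
      exact (congrArg Units.val (hgen Φ hΦ)).trans (Units.val_pow_eq_pow_val ..)
    obtain ⟨hρs, hcs, -, -⟩ := Matrix.fromBlocks_inj.mp hb
    have hτv : ∀ j : ℕ, c (τ ^ j) = 0 := fun j => by
      induction j with
      | zero => exact IsAdCocycle.map_one_eq ⟨hc1, hc2, Lc, hLc, hLc0⟩
      | succ j ih => rw [pow_succ, hc1, ih, hcτ]; simp
    rw [hτv, zero_mul] at hcs
    have hcs0 : c s = 0 := by
      calc c s = c s * ρ s * ρ s⁻¹ := by rw [mul_assoc, rep_mul_inv, mul_one]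
        _ = 0 := by rw [hcs, zero_mul]
    have h1 : c (s * Φ) = ρ s * c Φ * ρ s⁻¹ := by rw [hc1, hcs0, zero_add]
    have h2 : c (Φ * τ) = c Φ := by rw [hc1, hcτ]; simp
    rw [show s * Φ = Φ * τ by rw [hs]; group, h2] at h1
    have h3 : c Φ * ρ s = ρ s * c Φ := by
      conv_lhs => rw [h1]
      rw [mul_assoc, rep_inv_mul, mul_one]
    rw [hρs, map_pow, hpow, mul_add, add_mul, mul_one, one_mul, add_right_inj, mul_smul_comm,
      smul_mul_assoc] at h3
    exact exists_smul_of_commute hnn hne (hc2 Φ) (smul_right_injective _ hvk h3.symm)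
  -- the pairs of values form at most a three dimensional space
  have hW : finrank k (T.map ψ) ≤ 3 := by
    have h := ((LinearMap.fst k _ _).domRestrict (T.map ψ)).finrank_range_add_finrank_ker
    have hr : finrank k (LinearMap.range ((LinearMap.fst k _ _).domRestrict (T.map ψ))) ≤ 2 := by
      refine (Submodule.finrank_mono ?_).trans (finrank_anticommute_le hnn hne)
      rintro _ ⟨⟨_, ⟨c, hc, rfl⟩⟩, rfl⟩
      obtain ⟨hc1, hc2⟩ := mem_steinbergSub.mp hc
      exact ⟨hc1.2.1 τ, by simpa [ψ] using hc2⟩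
    have hk : finrank k (LinearMap.ker ((LinearMap.fst k _ _).domRestrict (T.map ψ))) ≤ 1 := by
      rw [← Submodule.finrank_map_subtype_eq]
      refine (Submodule.finrank_mono ?_).trans (finrank_span_singleton
        (K := k) (v := ((0, n) : Matrix (Fin 2) (Fin 2) k × Matrix (Fin 2) (Fin 2) k))
        fun h => hne (congrArg Prod.snd h)).le
      rintro _ ⟨⟨_, ⟨c, hc, rfl⟩⟩, hw, rfl⟩
      have hcτ : c τ = 0 := hw
      obtain ⟨t, ht⟩ := hline c (mem_steinbergSub.mp hc).1 hcτ
      refine Submodule.mem_span_singleton.mpr ⟨t, Prod.ext ?_ ?_⟩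
      · exact (smul_zero t).trans hcτ.symm
      · exact ht
    omega
  -- the coboundaries
  let sl := LinearMap.ker (Matrix.traceLinearMap (Fin 2) k k)
  let δ := (ψ.comp (cobFun ρ)).domRestrict sl
  have hkerδ : finrank k (LinearMap.ker δ) ≤ finrank k (adInvariants ρ A) := by
    have hmem : ∀ m : LinearMap.ker δ, m.1.1 ∈ adInvariants ρ A := fun m => by
      have hm : ψ (cobFun ρ m.1.1) = 0 := m.2
      have h0 := hvanish _ (cobFun_mem_cocycleSub hρ m.1.1) (congrArg Prod.fst hm)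
        (congrArg Prod.snd hm)
      simp only [adInvariants, Submodule.mem_inf, Submodule.mem_iInf, LinearMap.mem_eqLocus]
      refine ⟨m.1.2, fun σ hσ => ?_⟩
      have h1 := h0 σ hσ
      rw [cobFun_apply, sub_eq_zero] at h1
      simpa [mul_assoc] using h1.symm
    refine LinearMap.finrank_le_finrank_of_injective
      (f := (sl.subtype.comp (LinearMap.ker δ).subtype).codRestrict (adInvariants ρ A) hmem) ?_
    exact fun a b h => Subtype.ext (Subtype.ext (congrArg (fun z : adInvariants ρ A => z.1) h))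
  have hsum := δ.finrank_range_add_finrank_ker
  rw [show finrank k sl = 3 from finrank_trace_zero] at hsum
  have hδW : LinearMap.range δ ≤ T.map ψ := by
    rintro _ ⟨m, rfl⟩
    exact ⟨cobFun ρ m.1, cobFun_mem_steinbergSub hρ hnn _, rfl⟩
  -- the comparison
  let g := (LinearMap.range δ).mkQ.comp ψ
  have hker : ∀ c ∈ T, g c = 0 → locClass ρ (A.decompositionSubgroup ℚ) c = 0 := by
    intro c hc hg
    obtain ⟨m, hm⟩ := (Submodule.Quotient.mk_eq_zero _).mp
      (show Submodule.Quotient.mk (ψ c) = (0 : _ ⧸ LinearMap.range δ) from hg)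
    refine locClass_eq_zero_iff.mpr ⟨m.1, fun σ hσ => sub_eq_zero.mp ?_⟩
    refine hvanish (c - cobFun ρ m.1) (sub_mem (mem_steinbergSub.mp hc).1
      (cobFun_mem_cocycleSub hρ m.1) : c - cobFun ρ m.1 ∈ cocycleSub ρ) ?_ ?_ σ hσ
    · exact sub_eq_zero.mpr (congrArg Prod.fst hm).symm
    · exact sub_eq_zero.mpr (congrArg Prod.snd hm).symm
  obtain ⟨hfin, hle⟩ := finrank_map_le_of_ker T _ g hker
  have hVT : V ≤ T := fun c hc => by
    obtain ⟨hc1, hst'⟩ := hV c hc
    have hco := ((isAdCocycle_iff ρ c).mp hc1).1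
    exact mem_steinbergSub_of_dualLift hnn hc1 (isDualLift_dualLift ρ hco)
      ((hst' _ (isDualLift_dualLift ρ hco) A hA).1 τ hτ)
  have := hfin
  refine ⟨Submodule.finiteDimensional_of_le (Submodule.map_mono hVT), ?_⟩
  refine (Submodule.finrank_mono (Submodule.map_mono hVT)).trans (hle.trans ?_)
  have hq := finrank_map_mkQ_add _ _ hδW
  rw [show T.map g = (T.map ψ).map (LinearMap.range δ).mkQ from Submodule.map_comp ψ _ T]
  omega

end FLTAgent.LevelLowering

end
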